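/-
GAL / GenusBridge (architect helper260).  TASK GB-6 (proof by helper207).
A quotient `u = a / b` of elements of `AL N` with a pole of order at most `N` in
`t = exp (2 π i τ / N)` becomes bounded at `i∞` after multiplication by `Δ`.
-/
import Fermat.Agent.S24.B.TExp

set_option autoImplicit false

namespace Fermat.Agent.GAL.GenusBridge

open UpperHalfPlane Fermat.Agent.S24 Fermat.Agent.S24.B
open scoped MatrixGroups Manifold

variable {N : ℕ} [NeZero N]

/-- shifting an expansion by `t ^ m`: if all coefficients below `-m` vanish, the product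
`t ^ m * f` has a limit at `i∞`, namely the coefficient of index `-m`. -/
theorem Cusp_tendsto_shift {f : ℍ → ℂ} {s : LaurentSeries Kbar} (h : HasTExp N f s) (m : ℤ)
    (hs : ∀ k : ℤ, k < -m → s.coeff k = 0) :
    Filter.Tendsto (fun τ : ℍ => Function.Periodic.qParam N τ ^ m * f τ) atImInfty
      (nhds (iota (s.coeff (-m)))) := by
  have h1 := (HasTExp.single (N := N) m 1).mul h
  have hc : ∀ k : ℤ, ((HahnSeries.single m (1 : Kbar) : LaurentSeries Kbar) * s).coeff k
      = s.coeff (k - m) := by
    intro k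
    rw [HahnSeries.coeff_single_mul, one_mul]
  have h2 := h1.tendsto (by
    intro k hk
    rw [hc]
    exact hs _ (by omega))
  rw [hc, zero_sub] at h2
  refine h2.congr (fun τ => ?_)
  simp [Pi.mul_apply]

omit [NeZero N] in
theorem Cusp_qParam_pow [NeZero N] (τ : ℍ) :
    Function.Periodic.qParam N τ ^ (N : ℤ) = Function.Periodic.qParam 1 τ := by
  have hN : (N : ℂ) ≠ 0 := by exact_mod_cast NeZero.ne N
  rw [zpow_natCast]
  simp only [Function.Periodic.qParam, ← Complex.exp_nat_mul]
  congr 1
  push_cast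
  field_simp

theorem isBoundedAtImInfty_mul_discriminant (u : ℍ → ℂ) (a b : AL N) (hb : b ≠ 0)
    (hub : ∀ τ, u τ * b.1 τ = a.1 τ)
    (hord : a = 0 ∨ (texp N b).order - N ≤ (texp N a).order) :
    IsBoundedAtImInfty (fun τ => u τ * ModularForm.discriminant τ) := by
  set n : ℤ := (texp N b).order with hn
  have hsb : texp N b ≠ 0 := fun h => hb (texp_injective (by rw [h, map_zero]))
  have hβ : iota ((texp N b).coeff n) ≠ 0 := by
    intro h
    exact hsb (HahnSeries.coeff_order_eq_zero.mp (iota_injective (by rw [h, map_zero])))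
  -- (1) `t ^ (-n) * b` tends to a nonzero limit
  have hB := Cusp_tendsto_shift (hasTExp_texp b) (-n) (by
    intro k hk
    exact HahnSeries.coeff_eq_zero_of_lt_order (by omega))
  rw [neg_neg] at hB
  -- (2) `t ^ (N - n) * a` has a limit
  have hA := Cusp_tendsto_shift (hasTExp_texp a) ((N : ℤ) - n) (by
    intro k hk
    rcases hord with rfl | hord
    · simp
    · exact HahnSeries.coeff_eq_zero_of_lt_order (by omega))
  -- (3) `Δ = t ^ N * P` with `P → 1`
  have hP := ModularForm.tendsto_atImInfty_tprod_one_sub_eta_q_pow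
  have hlim := (hA.mul hP).div hB hβ
  have hne : ∀ᶠ τ : ℍ in atImInfty,
      Function.Periodic.qParam N τ ^ (-n) * b.1 τ ≠ 0 := hB.eventually_ne hβ
  have hev : (fun τ : ℍ => (Function.Periodic.qParam N τ ^ ((N : ℤ) - n) * a.1 τ *
      ∏' k : ℕ, (1 - ModularForm.eta_q k τ) ^ 24) /
      (Function.Periodic.qParam N τ ^ (-n) * b.1 τ)) =ᶠ[atImInfty]
      fun τ => u τ * ModularForm.discriminant τ := by
    filter_upwards [hne] with τ hτ
    have ht : Function.Periodic.qParam N τ ≠ 0 := Function.Periodic.qParam_ne_zero _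
    rw [div_eq_iff hτ, ModularForm.discriminant_eq_q_prod, ← Cusp_qParam_pow (N := N) τ,
      ← hub τ, zpow_sub₀ ht, zpow_neg]
    field_simp
  exact (hlim.congr' hev).isBigO_one ℝ

end Fermat.Agent.GAL.GenusBridge
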