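/-
GAL / GenusBridge (architect helper260).  TASK GB-8 (proved by helper267).
`dim M₁₂(Γ₀(N)) + dim S₂(Γ₀(N)) = [SL₂(ℤ) : Γ₀(N)] + 1`, from the free basis of S20.
-/
import Fermat.Agent.S20.Core
import Fermat.Agent.S20.Frame

set_option autoImplicit false

namespace Fermat.Agent.GAL.GenusBridge

open UpperHalfPlane ModularForm Module Fermat.Agent.S20
open scoped MatrixGroups ModularForm Manifold

open NumericsAux in
/-- the numerical part. -/
theorem Dim12_numerics {ι : Type} [Fintype ι] (wt : ι → ℤ) (d s : ℤ → ℕ)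
    (hd : ∀ w, d w = ∑ j, finrank ℂ (R (w - wt j)))
    (hs : ∀ w, s w = ∑ j, finrank ℂ (R (w + wt j - 12)))
    (hd0 : d 0 = 1) (hdneg : ∀ w < 0, d w = 0) (hs0 : ∀ w ≤ 0, s w = 0)
    (heven : ∀ j, Even (wt j)) : d 12 + s 2 = Fintype.card ι + 1 := by
  classical
  have hr0 : finrank ℂ (R 0) = 1 := by
    have := finrank_R_nat' 0 (by simp)
    simpa using this
  have hnonneg : ∀ j, 0 ≤ wt j := by
    intro j0
    by_contra hlt
    push Not at hlt
    have h1 := hdneg (wt j0) hlt
    rw [hd] at h1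
    have h4 := (Finset.sum_eq_zero_iff.mp h1) j0 (Finset.mem_univ _)
    rw [sub_self, hr0] at h4
    exact one_ne_zero h4
  have hle : ∀ j, wt j ≤ 11 := by
    intro j0
    by_contra hlt
    push Not at hlt
    have h1 := hs0 (12 - wt j0) (by omega)
    rw [hs] at h1
    have h4 := (Finset.sum_eq_zero_iff.mp h1) j0 (Finset.mem_univ _)
    rw [show 12 - wt j0 + wt j0 - 12 = 0 by ring, hr0] at h4
    exact one_ne_zero h4
  have rv : ∀ (a : ℤ) (k : ℕ), a = (k : ℤ) → Even k →
      finrank ℂ (R a) = if k % 12 = 2 then k / 12 else k / 12 + 1 := by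
    intro a k ha hk; rw [ha]; exact finrank_R_nat' k hk
  have hterm : ∀ j, finrank ℂ (R (12 - wt j)) + finrank ℂ (R (2 + wt j - 12)) =
      1 + finrank ℂ (R (0 - wt j)) := by
    intro j
    obtain ⟨m, hm⟩ := heven j
    have h1 := hnonneg j
    have h4 := hle j
    have : m = 0 ∨ m = 1 ∨ m = 2 ∨ m = 3 ∨ m = 4 ∨ m = 5 := by omega
    rw [hm]
    rcases this with h | h | h | h | h | h <;> subst h
    · rw [rv (12 - (0 + 0)) 12 (by norm_num) (by decide),
        finrank_R_neg' (show (2 : ℤ) + (0 + 0) - 12 < 0 by norm_num),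
        rv (0 - (0 + 0)) 0 (by norm_num) (by decide)]
      norm_num
    · rw [rv (12 - (1 + 1)) 10 (by norm_num) (by decide),
        finrank_R_neg' (show (2 : ℤ) + (1 + 1) - 12 < 0 by norm_num),
        finrank_R_neg' (show (0 : ℤ) - (1 + 1) < 0 by norm_num)]
      norm_num
    · rw [rv (12 - (2 + 2)) 8 (by norm_num) (by decide),
        finrank_R_neg' (show (2 : ℤ) + (2 + 2) - 12 < 0 by norm_num),
        finrank_R_neg' (show (0 : ℤ) - (2 + 2) < 0 by norm_num)]
      norm_num
    · rw [rv (12 - (3 + 3)) 6 (by norm_num) (by decide),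
        finrank_R_neg' (show (2 : ℤ) + (3 + 3) - 12 < 0 by norm_num),
        finrank_R_neg' (show (0 : ℤ) - (3 + 3) < 0 by norm_num)]
      norm_num
    · rw [rv (12 - (4 + 4)) 4 (by norm_num) (by decide),
        finrank_R_neg' (show (2 : ℤ) + (4 + 4) - 12 < 0 by norm_num),
        finrank_R_neg' (show (0 : ℤ) - (4 + 4) < 0 by norm_num)]
      norm_num
    · rw [rv (12 - (5 + 5)) 2 (by norm_num) (by decide),
        rv (2 + (5 + 5) - 12) 0 (by norm_num) (by decide),
        finrank_R_neg' (show (0 : ℤ) - (5 + 5) < 0 by norm_num)]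
      norm_num
  rw [hd 12, hs 2, ← Finset.sum_add_distrib, Finset.sum_congr rfl fun j _ => hterm j,
    Finset.sum_add_distrib, ← hd 0, hd0]
  simp

/-- the general statement for a finite index subgroup `Γ ∋ -1` admitting a separating form. -/
theorem Dim12_core {Γ : Subgroup SL(2, ℤ)} [Γ.FiniteIndex] (hneg : -1 ∈ Γ)
    (hsep : ∃ k : ℤ, ∃ h ∈ MF Γ k, ∀ g : SL(2, ℤ), h ∣[k] g = h → g ∈ Γ) :
    FiniteDimensional ℂ (MF Γ 12) ∧
      finrank ℂ (MF Γ 12) + finrank ℂ (CF Γ 2) = Nat.card (Q Γ) + 1 := by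
  obtain ⟨wt, F, hB⟩ := FreeBasis.exists_freeBasis hsep
  obtain ⟨M, hMpos, hM⟩ := Core.exists_period (Γ := Γ)
  have : NeZero M := ⟨hMpos.ne'⟩
  have hdet := hB.det_ne_zero
  obtain ⟨c, hc, hpow⟩ := hB.det_pow_twelve
  have heven : ∀ j, Even (wt j) := by
    intro j
    by_contra hodd
    rw [Int.not_even_iff_odd] at hodd
    have hFj : F j = 0 := by
      have := hB.mem j
      rw [B.MF_odd hneg hodd] at this
      simpa using this
    have := hB.indep (wt j) (fun i => if i = j then (fun _ => 1) else 0) (by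
      intro i
      by_cases hij : i = j
      · subst hij; simpa using LevelOne.const_mem_R_zero 1
      · simp [hij]) (by
      rw [Finset.sum_eq_single j]
      · simp [hFj]
      · intro i _ hij; simp [hij]
      · simp) j
    have h1 := congrFun this I
    simp at h1
  have hsurj : ∀ w, (∀ j, wt j + 4 ≤ w) → Even w →
      ∀ v : Q Γ → ℂ, ∃ f ∈ MF Γ w, ell M w f = v := by
    intro w hw hwe
    have := (finrank_MF hB w).1
    have hcount : finrank ℂ (MF Γ w) = finrank ℂ (MF Γ (w - 12)) + Nat.card (Q Γ) := by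
      rw [(finrank_MF hB w).2, (finrank_MF hB (w - 12)).2, Nat.card_eq_fintype_card,
        Fintype.card, Finset.card_eq_sum_ones, ← Finset.sum_add_distrib]
      refine Finset.sum_congr rfl fun j _ => ?_
      rw [Core.finrank_R_step (by have := hw j; omega) (hwe.sub (heven j)),
        show w - wt j - 12 = w - 12 - wt j by ring]
    exact fun v => ell_surjective hM hcount v
  obtain ⟨w₀, hw₀, hw₀e⟩ : ∃ w₀ : ℤ, (∀ j, wt j + 4 ≤ w₀) ∧ Even w₀ := by
    refine ⟨2 * (∑ j, |wt j|) + 4, fun j => ?_, by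
      exact (even_two_mul _).add (by decide)⟩
    have h1 : |wt j| ≤ ∑ j, |wt j| :=
      Finset.single_le_sum (f := fun j => |wt j|) (fun i _ => abs_nonneg _) (Finset.mem_univ j)
    have h2 := le_abs_self (wt j)
    have h3 := abs_nonneg (wt j)
    omega
  have hz : ∀ j q, IsZeroAtImInfty (DualA.gg wt F 1 j q) := fun j =>
    DualA.gg_one_zero hM hB hdet hc hpow
      (fun {w'} {g} hg h => local_duality hM (hsurj w₀ hw₀ hw₀e) hg h) j
  have key := Dim12_numerics wt (fun w => finrank ℂ (MF Γ w)) (fun w => finrank ℂ (CF Γ w))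
    (fun w => (finrank_MF hB w).2) (fun w => DualA.finrank_CF' hB hdet hz w) Core.finrank_MF_zero
    (fun w hw => by show finrank ℂ (MF Γ w) = 0; rw [B.MF_neg hw, finrank_bot])
    (fun w hw => by show finrank ℂ (CF Γ w) = 0; rw [B.CF_nonpos hw, finrank_bot]) heven
  refine ⟨(finrank_MF hB 12).1, ?_⟩
  rw [Nat.card_eq_fintype_card (α := Q Γ)]
  exact key

theorem finrank_MF_twelve (N : ℕ) [NeZero N] :
    FiniteDimensional ℂ (MF (CongruenceSubgroup.Gamma0 N) 12) ∧
    finrank ℂ (MF (CongruenceSubgroup.Gamma0 N) 12) +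
      finrank ℂ (CuspForm (CongruenceSubgroup.Gamma0 N) 2) =
        (CongruenceSubgroup.Gamma0 N).index + 1 := by
  have hcore := Dim12_core (Γ := CongruenceSubgroup.Gamma0 N)
    (by simp [CongruenceSubgroup.Gamma0_mem])
    (by
      obtain ⟨h, hh, hsep⟩ := Fermat.Agent.S20.Frame.exists_separating N
      exact ⟨12, h, hh, hsep⟩)
  refine ⟨hcore.1, ?_⟩
  rw [(CFequiv (CongruenceSubgroup.Gamma0 N) 2).finrank_eq, hcore.2, Subgroup.index_eq_card]

end Fermat.Agent.GAL.GenusBridge
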