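/-
GAL / GenusBridge (architect helper260).  TASK GB-2.
Division of holomorphic functions on the upper half plane.
-/
import Fermat.Agent.S24.B.WExpAnalytic

set_option autoImplicit false

namespace Fermat.Agent.GAL.GenusBridge

open UpperHalfPlane Fermat.Agent.S24 Fermat.Agent.S24.B
open scoped Manifold Topology

/-- local division of analytic functions. -/
theorem holDiv_local {A B : ℂ → ℂ} {z0 : ℂ} (hA : AnalyticAt ℂ A z0) (hB : AnalyticAt ℂ B z0)
    (hfin : analyticOrderAt B z0 ≠ ⊤) (hle : analyticOrderAt B z0 ≤ analyticOrderAt A z0) :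
    ∃ φ : ℂ → ℂ, AnalyticAt ℂ φ z0 ∧ (∀ᶠ z in 𝓝 z0, φ z * B z = A z) ∧
      ∀ᶠ z in 𝓝 z0, z ≠ z0 → B z ≠ 0 := by
  obtain ⟨n, hn⟩ := ENat.ne_top_iff_exists.mp hfin
  obtain ⟨b1, hb1, hb10, hBeq⟩ := (hB.analyticOrderAt_eq_natCast).mp hn.symm
  obtain ⟨a1, ha1, hAeq⟩ := (natCast_le_analyticOrderAt hA).mp (hn ▸ hle)
  have hne := hb1.continuousAt.eventually_ne hb10
  refine ⟨fun z => a1 z / b1 z, ha1.div hb1 hb10, ?_, ?_⟩
  · filter_upwards [hBeq, hAeq, hne] with z h1 h2 h3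
    rw [h1, h2]
    simp only [smul_eq_mul]
    field_simp
  · filter_upwards [hBeq, hne] with z h1 h3 h4
    rw [h1]
    exact smul_ne_zero (pow_ne_zero _ (sub_ne_zero.mpr h4)) h3

/-- GB-2: if `a` vanishes at least as much as `b ≠ 0` everywhere, then `a / b` is holomorphic. -/
theorem exists_mdiff_mul_eq {a b : ℍ → ℂ} (ha : MDiff a) (hb : MDiff b) (hb0 : b ≠ 0)
    (h : ∀ τ₀ : ℍ, ordAt τ₀ b ≤ ordAt τ₀ a) :
    ∃ u : ℍ → ℂ, MDiff u ∧ ∀ τ, u τ * b τ = a τ := by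
  set A : ℂ → ℂ := fun z => a (ofComplex z) with hAdef
  set B : ℂ → ℂ := fun z => b (ofComplex z) with hBdef
  have hA : ∀ τ : ℍ, AnalyticAt ℂ A τ := fun τ => wa_analyticAt_comp_ofComplex ha τ
  have hB : ∀ τ : ℍ, AnalyticAt ℂ B τ := fun τ => wa_analyticAt_comp_ofComplex hb τ
  have hfin : ∀ τ : ℍ, analyticOrderAt B τ ≠ ⊤ := by
    intro τ htop
    apply hb0
    have h2 : ∀ᶠ z in 𝓝 (τ : ℂ), b (ofComplex z) = 0 := analyticOrderAt_eq_top.mp htop
    have han := (UpperHalfPlane.mdifferentiable_iff.mp hb).analyticOnNhd isOpen_upperHalfPlaneSet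
    have hpre : IsPreconnected {z : ℂ | 0 < z.im} :=
      (Complex.isConnected_of_upperHalfPlane subset_rfl (by grind)).isPreconnected
    have h3 := han.eqOn_zero_of_preconnected_of_eventuallyEq_zero hpre τ.im_pos h2
    funext σ
    have := h3 σ.im_pos
    simpa using this
  choose φ hφan hφmul hBne using fun τ : ℍ => holDiv_local (hA τ) (hB τ) (hfin τ) (h τ)
  refine ⟨fun τ => φ τ τ, ?_, ?_⟩
  · rw [UpperHalfPlane.mdifferentiable_iff]
    intro z hz
    have hz' : 0 < z.im := hz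
    set τ0 : ℍ := ⟨z, hz'⟩ with hτ0
    have hopen : ∀ᶠ w in 𝓝 z, 0 < w.im := isOpen_upperHalfPlaneSet.mem_nhds hz
    have key : ((fun τ : ℍ => φ τ τ) ∘ ofComplex) =ᶠ[𝓝 z] φ τ0 := by
      have e1 : ∀ᶠ w in 𝓝 z, φ τ0 w * B w = A w := hφmul τ0
      have e2 : ∀ᶠ w in 𝓝 z, w ≠ z → B w ≠ 0 := hBne τ0
      filter_upwards [hopen, e1, e2] with w hw h1 h2
      have hof : ofComplex w = ⟨w, hw⟩ := ofComplex_apply_of_im_pos hw
      simp only [Function.comp_apply, hof]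
      by_cases hwz : w = z
      · subst hwz
        rfl
      · have h3 : φ ⟨w, hw⟩ w * B w = A w := (hφmul ⟨w, hw⟩).self_of_nhds
        exact mul_right_cancel₀ (h2 hwz) (h3.trans h1.symm)
    have han : AnalyticAt ℂ (φ τ0) z := hφan τ0
    exact (han.congr key.symm).differentiableAt.differentiableWithinAt
  · intro τ
    have := (hφmul τ).self_of_nhds
    simpa [hAdef, hBdef] using this

end Fermat.Agent.GAL.GenusBridge
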