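/-
GAL / GenusBridge (architect helper260).  TASK GB-3.
Holomorphic functions on the upper half plane form a domain.
-/
import Fermat.Agent.S24.B.WExpAnalytic

set_option autoImplicit false

namespace Fermat.Agent.GAL.GenusBridge

open UpperHalfPlane Fermat.Agent.S24 Fermat.Agent.S24.B
open scoped Manifold

/-- GB-3: holomorphic functions on `ℍ` form a domain. -/
theorem eq_zero_of_mul_eq_zero {u v : ℍ → ℂ} (hu : MDiff u) (hv : MDiff v)
    (h : ∀ τ, u τ * v τ = 0) (hv0 : v ≠ 0) : u = 0 := by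
  obtain ⟨su, hsu⟩ := exists_hasWExp UpperHalfPlane.I hu
  obtain ⟨sv, hsv⟩ := exists_hasWExp UpperHalfPlane.I hv
  have huv : u * v = fun _ => (0 : ℂ) := funext h
  have h1 : HasWExp UpperHalfPlane.I (fun _ => (0 : ℂ)) (su * sv) := huv ▸ hsu.mul hsv
  have h2 : su * sv = 0 := by
    rw [h1.unique (HasWExp.const (0 : ℂ)), map_zero]
  rcases mul_eq_zero.1 h2 with h0 | h0
  · exact HasWExp.eq_zero hu (h0 ▸ hsu)
  · exact absurd (HasWExp.eq_zero hv (h0 ▸ hsv)) hv0

end Fermat.Agent.GAL.GenusBridge
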