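/-
GAL / GenusBridge (architect helper260).  TASK GB-7.
Elements of `AL N` which are linearly independent over `ℚ̄` are linearly independent over `ℂ`
as functions on `ℍ` (they have `t`-expansions with coefficients in `ℚ̄`).
-/
import Fermat.Agent.S24.B.TExp

set_option autoImplicit false

namespace Fermat.Agent.GAL.GenusBridge

open UpperHalfPlane Fermat.Agent.S24 Fermat.Agent.S24.B
open scoped MatrixGroups Manifold

variable {N : ℕ} [NeZero N]

/-- uniqueness of Laurent expansions in `t` with complex coefficients. -/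
theorem Indep_coeff_eq_zero (d : ℤ → ℂ) (m : ℤ) (hm : ∀ n : ℤ, n < m → d n = 0)
    (hd : ∀ τ : ℍ, HasSum (fun n : ℤ => d n * Function.Periodic.qParam N τ ^ n) 0) (n : ℤ) :
    d n = 0 := by
  by_contra hn
  obtain ⟨n0, hn0, hmin⟩ := Int.exists_least_of_bdd (P := fun z => d z ≠ 0)
    ⟨m, fun z hz => by
      by_contra hlt
      exact hz (hm z (not_le.mp hlt))⟩ ⟨n, hn⟩
  have hN : (0 : ℝ) < (N : ℝ) := by exact_mod_cast Nat.pos_of_ne_zero (NeZero.ne N)
  have hq0 : ∀ τ : ℍ, Function.Periodic.qParam N τ ≠ 0 := fun τ => Complex.exp_ne_zero _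
  have key : ∀ τ : ℍ, HasSum (fun k : ℕ => d (n0 + k) * Function.Periodic.qParam N τ ^ k)
      ((fun _ : ℍ => (0 : ℂ)) τ) := by
    intro τ
    have h1 := (Function.Injective.hasSum_iff
      (f := fun n : ℤ => d n * Function.Periodic.qParam N τ ^ n)
      (g := fun k : ℕ => n0 + (k : ℤ)) (fun a b hab => by simpa using hab) (by
        intro x hx
        have hx0 : x < n0 := by
          by_contra hx0
          exact hx ⟨(x - n0).toNat, by
            simp only
            rw [Int.toNat_of_nonneg (by omega)]
            ring⟩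
        have : d x = 0 := by
          by_contra hdx
          exact absurd (hmin x hdx) (not_le.mpr hx0)
        simp [this])).mpr (hd τ)
    have h2 := h1.mul_right (Function.Periodic.qParam N τ ^ (-n0))
    rw [zero_mul] at h2
    have hfun : (fun k : ℕ => d (n0 + k) * Function.Periodic.qParam N τ ^ k)
        = fun k : ℕ => ((fun n : ℤ => d n * Function.Periodic.qParam N τ ^ n) ∘
            fun k : ℕ => n0 + (k : ℤ)) k * Function.Periodic.qParam N τ ^ (-n0) := by
      funext k
      simp only [Function.comp_apply]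
      rw [mul_assoc, ← zpow_add₀ (hq0 τ), show n0 + (k : ℤ) + -n0 = (k : ℤ) by ring, zpow_natCast]
    rw [hfun]
    exact h2
  have h3 := tendsto_of_hasSum_nat hN key
  have h4 : d (n0 + ((0 : ℕ) : ℤ)) = 0 :=
    tendsto_nhds_unique h3 (tendsto_const_nhds (x := (0 : ℂ)))
  rw [Nat.cast_zero, add_zero] at h4
  exact hn0 h4

theorem linearIndependent_complex_of_AL {ι : Type*} [Finite ι] (a : ι → AL N)
    (ha : LinearIndependent Kbar a) : LinearIndependent ℂ (fun i => ((a i).1 : ℍ → ℂ)) := by
  classical
  cases nonempty_fintype ι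
  rw [Fintype.linearIndependent_iff]
  intro c hc
  -- STEP 1: the coefficients of the combination vanish
  have step1 : ∀ n : ℤ, ∑ i, c i * iota ((texp N (a i)).coeff n) = 0 := by
    obtain ⟨m, hm⟩ : ∃ m : ℤ, ∀ i, ∀ n : ℤ, n < m → (texp N (a i)).coeff n = 0 := by
      obtain ⟨m, hm⟩ := Finset.exists_le (Finset.univ.image fun i => -(texp N (a i)).order)
      refine ⟨-m, fun i n hn => HahnSeries.coeff_eq_zero_of_lt_order (lt_of_lt_of_le hn ?_)⟩
      have := hm _ (Finset.mem_image_of_mem _ (Finset.mem_univ i))
      omega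
    refine Indep_coeff_eq_zero (N := N) _ m ?_ ?_
    · intro n hn
      refine Finset.sum_eq_zero fun i _ => ?_
      rw [hm i n hn, map_zero, mul_zero]
    · intro τ
      have h1 : HasSum (fun n : ℤ => ∑ i, c i * (iota ((texp N (a i)).coeff n)
          * Function.Periodic.qParam N τ ^ n)) (∑ i, c i * (a i).1 τ) :=
        hasSum_sum fun i _ => (hasTExp_texp (a i) τ).mul_left (c i)
      have h2 : ∑ i, c i * (a i).1 τ = 0 := by
        have := congrFun hc τ
        simpa [Finset.sum_apply, Pi.smul_apply, smul_eq_mul] using this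
      rw [h2] at h1
      have hfun : (fun n : ℤ => (∑ i, c i * iota ((texp N (a i)).coeff n))
          * Function.Periodic.qParam N τ ^ n) = fun n : ℤ => ∑ i, c i *
            (iota ((texp N (a i)).coeff n) * Function.Periodic.qParam N τ ^ n) := by
        funext n
        rw [Finset.sum_mul]
        exact Finset.sum_congr rfl fun i _ => mul_assoc _ _ _
      rw [hfun]
      exact h1
  -- STEP 2: linear algebra over `ℚ̄`
  let e := Module.Basis.ofVectorSpace Kbar ℂ
  intro i
  rw [← e.forall_coord_eq_zero_iff]
  intro β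
  have h1 : ∑ i, (e.coord β (c i)) • a i = 0 := by
    apply texp_injective (N := N)
    rw [map_zero, map_sum]
    ext n
    rw [HahnSeries.coeff_zero]
    have h2 := congrArg (e.coord β) (step1 n)
    rw [map_zero, map_sum] at h2
    rw [HahnSeries.coeff_sum, ← h2]
    refine Finset.sum_congr rfl fun x _ => ?_
    rw [Algebra.smul_def, map_mul, AlgHom.commutes, Formal.coeff_algebraMap_mul_laurent,
      show c x * iota ((texp N (a x)).coeff n) = ((texp N (a x)).coeff n) • c x by
        rw [Algebra.smul_def, algebraMap_Kbar_complex, mul_comm],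
      map_smul, smul_eq_mul, mul_comm]
  exact Fintype.linearIndependent_iff.mp ha _ h1 i

end Fermat.Agent.GAL.GenusBridge
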