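/-
GAL / GenusBridge (architect helper260).  TASK GB-1.
A valuation of a function field which is trivial on the constants is bounded on `L((x)_∞)`.
-/
import Fermat.Agent.S27.Riemann.Basic
import Fermat.Agent.S27.H.ValSubring

set_option autoImplicit false

namespace Fermat.Agent.GAL.GenusBridge

open AlgebraicCurve Fermat.Agent.S24.FF Fermat.Agent.S27.Riemann

variable {K F : Type*} [Field K] [Field F] [Algebra K F] [IsAlgClosed K] [CharZero K] [IsFF1 K F]

/-- If `f ∈ L((x)_∞)` then `V f ≤ max 1 (V x)` for every valuation `V` of `F` with `V ≤ 1` on the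
constants.  (Either the valuation ring of `V` is everything, or it is a place:
`Fermat.Agent.S27.H.placeOfValuationSubring`.) -/
theorem map_le_max_of_mem_L {Γ₀ : Type*} [LinearOrderedCommGroupWithZero Γ₀]
    (V : Valuation F Γ₀) (hV : ∀ c : K, V (algebraMap K F c) ≤ 1) (x f : F)
    (hf : f ∈ riemannRochSpace (poleDiv (K := K) x)) : V f ≤ max 1 (V x) := by
  have hmem : ∀ g : F, g ∈ V.valuationSubring ↔ V g ≤ 1 := fun g =>
    Valuation.mem_valuationSubring_iff V g
  by_cases hA : V.valuationSubring = ⊤
  · have : f ∈ V.valuationSubring := by rw [hA]; exact ValuationSubring.mem_top f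
    exact le_max_of_le_left ((hmem f).1 this)
  have hK : ∀ a : K, algebraMap K F a ∈ V.valuationSubring := fun a => (hmem _).2 (hV a)
  let v : Place K F := Fermat.Agent.S27.H.placeOfValuationSubring V.valuationSubring hK hA
  have hv : ∀ g : F, V g ≤ 1 ↔ 0 ≤ v.ord g := fun g => by
    rw [← hmem g]
    exact Fermat.Agent.S24.FF.mem_iff_ord_nonneg v
  rcases eq_or_ne f 0 with rfl | hf0
  · simp
  have h1 : -(max 0 (-v.ord x)) ≤ v.ord f := by
    rcases (mem_riemannRochSpace_iff.1 hf v) with h | h
    · exact absurd h hf0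
    · simpa [poleDiv_apply] using h
  by_cases hx : V x ≤ 1
  · have hx' : 0 ≤ v.ord x := (hv x).1 hx
    have : 0 ≤ v.ord f := by
      rw [max_eq_left (by omega)] at h1
      omega
    exact le_max_of_le_left ((hv f).2 this)
  · have hx' : ¬ 0 ≤ v.ord x := fun h => hx ((hv x).2 h)
    have hx0 : x ≠ 0 := by
      rintro rfl
      simp at hx
    have h2 : 0 ≤ v.ord (f * x⁻¹) := by
      rw [Place.ord_mul v hf0 (inv_ne_zero hx0), Place.ord_inv]
      rw [max_eq_right (by omega)] at h1
      omega
    have h3 : V (f * x⁻¹) ≤ 1 := (hv _).2 h2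
    have hVx : V x ≠ 0 := (Valuation.ne_zero_iff V).2 hx0
    rw [map_mul, map_inv₀] at h3
    have h4 : V f ≤ V x := by
      have := mul_le_mul_left h3 (V x)
      rwa [mul_assoc, inv_mul_cancel₀ hVx, mul_one, one_mul] at this
    exact le_max_of_le_right h4

end Fermat.Agent.GAL.GenusBridge
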