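/-
GAL / GenusBridge (architect helper260).  TASK GB-4.
Orders of `Psi N f`, `f ∈ L((j)_∞)`, at the points of `ℍ`.
-/
import Fermat.Agent.GAL.GenusBridge.ValBound
import Fermat.Agent.S24.Export.Ramification

set_option autoImplicit false

namespace Fermat.Agent.GAL.GenusBridge

open AlgebraicCurve UpperHalfPlane Fermat.Agent.S24 Fermat.Agent.S24.B Fermat.Agent.S24.FF
  Fermat.Agent.S27.Riemann
open scoped MatrixGroups Manifold

variable {N : ℕ} [NeZero N]

instance instIsFF1FN : IsFF1 Kbar (FN N) := Export.isFF1 N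

/-- The valuation of a nonzero power series, seen as a Laurent series. -/
theorem Orders_lval_ofPowerSeries {C : Type*} [Field C] (s : PowerSeries C) (hs : s ≠ 0) :
    lval C (HahnSeries.ofPowerSeries ℤ C s) = WithZero.exp (-(s.order.toNat : ℤ)) := by
  have h0 : HahnSeries.ofPowerSeries ℤ C s ≠ 0 := by
    intro h
    exact hs (HahnSeries.ofPowerSeries_injective (by rw [h, map_zero]))
  have hfin : s.order = ((s.order.toNat : ℕ) : ℕ∞) := by
    rw [ENat.natCast_toNat]
    exact fun h => hs (PowerSeries.order_eq_top.mp h)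
  rw [lval_of_ne_zero h0, order_ofPowerSeries s _ hfin]

theorem Orders_lval_ofPowerSeries_le_one {C : Type*} [Field C] (s : PowerSeries C) :
    lval C (HahnSeries.ofPowerSeries ℤ C s) ≤ 1 := by
  by_cases hs : s = 0
  · rw [hs, map_zero, map_zero]
    exact zero_le_one
  · rw [Orders_lval_ofPowerSeries s hs, ← WithZero.exp_zero, WithZero.exp_le_exp]
    omega

/-- GB-4: `Psi N f = a / b` has no pole in `ℍ`. -/
theorem ordAt_le_of_mem_L (f : FN N)
    (hf : f ∈ riemannRochSpace (poleDiv (K := Kbar) (jF N))) (a b : AL N) (hb : b ≠ 0)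
    (hab : Psi N f * algebraMap (AL N) (LN N) b = algebraMap (AL N) (LN N) a) (τ₀ : ℍ) :
    ordAt τ₀ b.1 ≤ ordAt τ₀ a.1 := by
  let V : Valuation (FN N) (WithZero (Multiplicative ℤ)) :=
    ((lval ℂ).comap (wexpL N τ₀)).comap (Psi N).toRingHom
  have hVapp : ∀ g : FN N, V g = lval ℂ (wexpL N τ₀ (Psi N g)) := fun g => rfl
  have hVc : ∀ c : Kbar, V (algebraMap Kbar (FN N) c) ≤ 1 := by
    intro c
    rw [hVapp, AlgHom.commutes, wexpL_algebraMap_Kbar, ← HahnSeries.ofPowerSeries_C]
    exact Orders_lval_ofPowerSeries_le_one _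
  have hVj : V (jF N) ≤ 1 := by
    have h1 : Psi N (jF N) = algebraMap (AL N) (LN N) (jd N 1 (one_dvd N)) := Psi_JF 1 (one_dvd N)
    rw [hVapp, h1, wexpL_algebraMap]
    exact Orders_lval_ofPowerSeries_le_one _
  have hVf : V f ≤ 1 := by
    have := map_le_max_of_mem_L V hVc (jF N) f hf
    rwa [max_eq_left hVj] at this
  rw [hVapp] at hVf
  have hab' := congrArg (wexpL N τ₀) hab
  rw [map_mul, wexpL_algebraMap, wexpL_algebraMap] at hab'
  rw [← order_wexp, ← order_wexp]
  have hwb : wexp N τ₀ b ≠ 0 := by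
    intro h
    exact hb (wexp_injective τ₀ (by rw [h, map_zero]))
  by_cases hwa : wexp N τ₀ a = 0
  · rw [hwa, PowerSeries.order_zero]
    exact le_top
  · have hle : lval ℂ (HahnSeries.ofPowerSeries ℤ ℂ (wexp N τ₀ a)) ≤
        lval ℂ (HahnSeries.ofPowerSeries ℤ ℂ (wexp N τ₀ b)) := by
      rw [← hab', map_mul]
      exact mul_le_of_le_one_left' hVf
    rw [Orders_lval_ofPowerSeries _ hwa, Orders_lval_ofPowerSeries _ hwb,
      WithZero.exp_le_exp] at hle
    have hfa : (wexp N τ₀ a).order = (((wexp N τ₀ a).order.toNat : ℕ) : ℕ∞) := by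
      rw [ENat.natCast_toNat]
      exact fun h => hwa (PowerSeries.order_eq_top.mp h)
    have hfb : (wexp N τ₀ b).order = (((wexp N τ₀ b).order.toNat : ℕ) : ℕ∞) := by
      rw [ENat.natCast_toNat]
      exact fun h => hwb (PowerSeries.order_eq_top.mp h)
    rw [hfa, hfb]
    have : (wexp N τ₀ b).order.toNat ≤ (wexp N τ₀ a).order.toNat := by omega
    exact_mod_cast this

end Fermat.Agent.GAL.GenusBridge
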