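/-
GAL / GenusBridge (architect helper260).  TASK GB-5.
Orders of the conjugates of `Psi N f`, `f ∈ L((j)_∞)`, at the cusp `i∞`.
-/
import Fermat.Agent.GAL.GenusBridge.Orders

set_option autoImplicit false

namespace Fermat.Agent.GAL.GenusBridge

open AlgebraicCurve UpperHalfPlane Fermat.Agent.S24 Fermat.Agent.S24.B Fermat.Agent.S24.FF
  Fermat.Agent.S27.Riemann
open scoped MatrixGroups Manifold

variable {N : ℕ} [NeZero N]

/-- The ring hom `g ↦ texpL N (γ • Psi N g)`. -/
noncomputable def ordersCuspHom (N : ℕ) [NeZero N] (γ : SL(2, ℤ)) :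
    FN N →+* LaurentSeries Kbar :=
  (texpL N).toRingHom.comp
    ((MulSemiringAction.toRingHom SL(2, ℤ) (LN N) γ).comp (Psi N).toRingHom)

theorem ordersCuspHom_apply (γ : SL(2, ℤ)) (g : FN N) :
    ordersCuspHom N γ g = texpL N (γ • Psi N g) := rfl

/-- The valuation `g ↦ lval (texpL N (γ • Psi N g))` of `FN N`. -/
noncomputable def ordersCuspVal (N : ℕ) [NeZero N] (γ : SL(2, ℤ)) :
    Valuation (FN N) (WithZero (Multiplicative ℤ)) :=
  (lval Kbar).comap (ordersCuspHom N γ)

theorem ordersCuspVal_apply (γ : SL(2, ℤ)) (g : FN N) :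
    ordersCuspVal N γ g = lval Kbar (texpL N (γ • Psi N g)) := rfl

theorem ordersCuspVal_algebraMap_le (γ : SL(2, ℤ)) (c : Kbar) :
    ordersCuspVal N γ (algebraMap Kbar (FN N) c) ≤ 1 := by
  rw [ordersCuspVal_apply, AlgHom.commutes, smul_algebraMap_Kbar, AlgHom.commutes]
  by_cases hc : c = 0
  · subst hc
    rw [map_zero, map_zero]
    exact zero_le_one
  · have hne : algebraMap Kbar (LaurentSeries Kbar) c ≠ 0 := by
      rw [Ne, map_eq_zero_iff _ (algebraMap Kbar (LaurentSeries Kbar)).injective]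
      exact hc
    rw [lval_of_ne_zero hne, ModularCurve.algebraMap_laurentSeries_eq_single,
      HahnSeries.order_single hc, neg_zero, WithZero.exp_zero]

theorem ordersCuspVal_jF (γ : SL(2, ℤ)) :
    ordersCuspVal N γ (jF N) = WithZero.exp (N : ℤ) := by
  rw [ordersCuspVal_apply, smul_Psi_jF, texpL_Psi]
  have h1 : phi1 N (jF N) = ModularCurve.qExpand Kbar N (Jser 1) := rfl
  have h2 : ModularCurve.qExpand Kbar N (Jser 1) ≠ 0 := fun h =>
    Jser_one_ne_zero (ModularCurve.qExpand_injective (R := Kbar) (N := N) (by rw [h, map_zero]))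
  rw [h1, lval_of_ne_zero h2, order_qExpand, order_Jser_one]
  congr 1
  ring

/-- GB-5: every conjugate `γ • Psi N f = a / b` has a pole of order at most `N` in
`t = exp (2 π i τ / N)` at `i∞`. -/
theorem order_texp_of_mem_L (f : FN N)
    (hf : f ∈ riemannRochSpace (poleDiv (K := Kbar) (jF N))) (γ : SL(2, ℤ)) (a b : AL N)
    (ha : a ≠ 0) (hb : b ≠ 0)
    (hab : (γ • Psi N f) * algebraMap (AL N) (LN N) b = algebraMap (AL N) (LN N) a) :
    (texp N b).order - N ≤ (texp N a).order := by
  have hV := map_le_max_of_mem_L (K := Kbar) (ordersCuspVal N γ)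
    (ordersCuspVal_algebraMap_le γ) (jF N) f hf
  rw [ordersCuspVal_jF, ordersCuspVal_apply] at hV
  have hmax : max (1 : WithZero (Multiplicative ℤ)) (WithZero.exp (N : ℤ)) =
      WithZero.exp (N : ℤ) := by
    apply max_eq_right
    rw [← WithZero.exp_zero, WithZero.exp_le_exp]
    exact Int.natCast_nonneg N
  rw [hmax] at hV
  have hta : texp N a ≠ 0 := fun h => ha (texp_injective (by rw [h, map_zero]))
  have htb : texp N b ≠ 0 := fun h => hb (texp_injective (by rw [h, map_zero]))
  have hE : texpL N (γ • Psi N f) * texp N b = texp N a := by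
    rw [← texpL_algebraMap, ← texpL_algebraMap, ← map_mul, hab]
  have htf : texpL N (γ • Psi N f) ≠ 0 := by
    intro h
    rw [h, zero_mul] at hE
    exact hta hE.symm
  have hord := HahnSeries.order_mul htf htb
  rw [hE] at hord
  rw [lval_of_ne_zero htf, WithZero.exp_le_exp] at hV
  omega

end Fermat.Agent.GAL.GenusBridge
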