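/-
GAL / GenusBridge (architect helper260).  Assembly.
`dim S₂(Γ₀(N)) ≤ genusFF ℚ̄ (FN N)`.
-/
import Fermat.Agent.GAL.GenusBridge.HolDiv
import Fermat.Agent.GAL.GenusBridge.HolDomain
import Fermat.Agent.GAL.GenusBridge.OrdersCusp
import Fermat.Agent.GAL.GenusBridge.Cusp
import Fermat.Agent.GAL.GenusBridge.Indep
import Fermat.Agent.GAL.GenusBridge.Dim12
import Fermat.Agent.S27.Riemann

set_option autoImplicit false

namespace Fermat.Agent.GAL.GenusBridge

open AlgebraicCurve UpperHalfPlane Module Fermat.Agent.S24 Fermat.Agent.S24.B Fermat.Agent.S24.FF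
  Fermat.Agent.S27.Riemann
open scoped MatrixGroups Manifold ModularForm

variable {N : ℕ} [NeZero N]

theorem discriminant_smul (γ : SL(2, ℤ)) (τ : ℍ) :
    ModularForm.discriminant (γ • τ) = (denom γ τ) ^ (12 : ℤ) * ModularForm.discriminant τ :=
  SlashInvariantForm.slash_action_eqn'' (Γ := 𝒮ℒ) CuspForm.discriminant
    (γ := Matrix.SpecialLinearGroup.mapGL ℝ γ) (MonoidHom.mem_range.mpr ⟨γ, rfl⟩) τ

theorem slash_mul_discriminant (u : ℍ → ℂ) (γ : SL(2, ℤ)) :
    (fun τ => u τ * ModularForm.discriminant τ) ∣[(12 : ℤ)] γ =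
      fun τ => u (γ • τ) * ModularForm.discriminant τ := by
  funext τ
  rw [ModularForm.SL_slash_apply, discriminant_smul]
  have hd : denom γ τ ≠ 0 := denom_ne_zero _ _
  rw [mul_assoc, mul_assoc, mul_comm (ModularForm.discriminant τ), ← mul_assoc (_ ^ (12 : ℤ)),
    ← zpow_add₀ hd]
  simp

theorem algebraMap_AL_injective : Function.Injective (algebraMap (AL N) (LN N)) :=
  IsFractionRing.injective (AL N) (LN N)

/-- the relation `g * b = a` is transported by `γ`. -/
theorem smul_rel {g : LN N} {a b : AL N}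
    (hab : g * algebraMap (AL N) (LN N) b = algebraMap (AL N) (LN N) a) (γ : SL(2, ℤ)) :
    (γ • g) * algebraMap (AL N) (LN N) (γ • b) = algebraMap (AL N) (LN N) (γ • a) := by
  rw [← smul_algebraMap_AL, ← smul_algebraMap_AL, ← smul_mul', hab]

theorem smul_ne_zero_AL {b : AL N} (hb : b ≠ 0) (γ : SL(2, ℤ)) : γ • b ≠ 0 := by
  intro h
  apply hb
  have := congrArg (fun x => γ⁻¹ • x) h
  simpa using this

theorem coe_ne_zero_AL {b : AL N} (hb : b ≠ 0) : (b.1 : ℍ → ℂ) ≠ 0 := fun h => hb (Subtype.ext h)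

/-- the key membership: `f ↦ f Δ` maps `L((j)_∞)` to `M₁₂(Γ₀(N))`. -/
theorem mul_discriminant_mem_MF (f : FN N)
    (hf : f ∈ riemannRochSpace (poleDiv (K := Kbar) (jF N))) (a b : AL N) (hb : b ≠ 0)
    (hab : Psi N f * algebraMap (AL N) (LN N) b = algebraMap (AL N) (LN N) a)
    (u : ℍ → ℂ) (hu : MDiff u) (hub : ∀ τ, u τ * b.1 τ = a.1 τ) :
    (fun τ => u τ * ModularForm.discriminant τ) ∈ S20.MF (CongruenceSubgroup.Gamma0 N) 12 := by
  refine ⟨hu.mul CuspForm.discriminant.holo', fun γ hγ => ?_, fun γ => ?_⟩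
  · rw [slash_mul_discriminant]
    -- invariance of `u`
    have hinv : (fun τ => u (γ • τ)) - u = 0 := by
      have hγ' : γ⁻¹ ∈ CongruenceSubgroup.Gamma0 N := inv_mem hγ
      have h1 := smul_rel hab γ⁻¹
      rw [smul_Psi_of_mem_Gamma0 γ⁻¹ hγ' f] at h1
      -- cross multiplication in `AL N`
      have h2 : (γ⁻¹ • a) * b = a * (γ⁻¹ • b) := by
        apply algebraMap_AL_injective
        rw [map_mul, map_mul, ← h1, ← hab]
        ring
      have h3 : ∀ τ, a.1 (γ • τ) * b.1 τ = a.1 τ * b.1 (γ • τ) := by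
        intro τ
        have := congrArg (fun x : AL N => x.1 τ) h2
        simpa [smul_AL_apply] using this
      have hmd : MDiff (fun τ => u (γ • τ)) := by
        have := hu.comp (mdifferentiable_smul (g := (γ : GL (Fin 2) ℝ)) (by simp))
        exact this
      refine eq_zero_of_mul_eq_zero (v := ((γ⁻¹ • b) * b : AL N).1) (hmd.sub hu)
        (Stubs.mdiff_of_mem_AL ((γ⁻¹ • b) * b : AL N).2) ?_
        (coe_ne_zero_AL (mul_ne_zero (smul_ne_zero_AL hb _) hb))
      intro τ
      have e1 : ((γ⁻¹ • b) * b : AL N).1 τ = b.1 (γ • τ) * b.1 τ := by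
        show (γ⁻¹ • b).1 τ * b.1 τ = _
        rw [smul_AL_apply, inv_inv]
      rw [e1]
      have := h3 τ
      rw [← hub, ← hub] at this
      simp only [Pi.sub_apply]
      linear_combination this
    funext τ
    have := congrFun hinv τ
    simp only [Pi.sub_apply, Pi.zero_apply, sub_eq_zero] at this
    rw [this]
  · rw [slash_mul_discriminant]
    refine isBoundedAtImInfty_mul_discriminant (N := N) (fun τ => u (γ • τ)) (γ⁻¹ • a) (γ⁻¹ • b)
      (smul_ne_zero_AL hb _) ?_ ?_
    · intro τ
      rw [smul_AL_apply, smul_AL_apply, inv_inv]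
      exact hub _
    · by_cases ha : a = 0
      · left; rw [ha, smul_zero]
      · right
        exact order_texp_of_mem_L f hf γ⁻¹ _ _ (smul_ne_zero_AL ha _) (smul_ne_zero_AL hb _)
          (smul_rel hab γ⁻¹)

/-- `l((j)_∞) ≤ dim M₁₂(Γ₀(N))`. -/
theorem finrank_L_le :
    finrank Kbar (riemannRochSpace (poleDiv (K := Kbar) (jF N))) ≤
      finrank ℂ (S20.MF (CongruenceSubgroup.Gamma0 N) 12) := by
  classical
  have hF : ∃ x : FN N, Transcendental Kbar x := ⟨jF N, Formal.transcendental_jF N⟩
  haveI := finite_L hF (poleDiv (K := Kbar) (jF N))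
  haveI := (finrank_MF_twelve N).1
  set L := riemannRochSpace (poleDiv (K := Kbar) (jF N)) with hL
  let B := Module.finBasis Kbar L
  -- common denominator
  obtain ⟨b, hbmul⟩ := IsLocalization.exist_integer_multiples_of_finset (nonZeroDivisors (AL N))
    (Finset.univ.image fun i => Psi N (B i : FN N))
  have hb0 : (b : AL N) ≠ 0 := nonZeroDivisors.coe_ne_zero b
  have hex : ∀ i, ∃ a : AL N,
      Psi N (B i : FN N) * algebraMap (AL N) (LN N) b = algebraMap (AL N) (LN N) a := by
    intro i
    obtain ⟨a, ha⟩ := hbmul (Psi N (B i : FN N)) (Finset.mem_image_of_mem _ (Finset.mem_univ i))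
    refine ⟨a, ?_⟩
    rw [ha, Algebra.smul_def, mul_comm]
  choose a ha using hex
  have hexu : ∀ i, ∃ u : ℍ → ℂ, MDiff u ∧ ∀ τ, u τ * (b : AL N).1 τ = (a i).1 τ := fun i =>
    exists_mdiff_mul_eq (Stubs.mdiff_of_mem_AL (a i).2) (Stubs.mdiff_of_mem_AL (b : AL N).2)
      (coe_ne_zero_AL hb0) (ordAt_le_of_mem_L _ (B i).2 (a i) b hb0 (ha i))
  choose u hu hub using hexu
  -- the `a i` are independent over `ℚ̄`
  have hindA : LinearIndependent Kbar a := by
    have h1 : LinearIndependent Kbar (fun i => (B i : FN N)) :=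
      B.linearIndependent.map' L.subtype (Submodule.ker_subtype L)
    have h2 : LinearIndependent Kbar (fun i => Psi N (B i : FN N) * algebraMap (AL N) (LN N) b) := by
      have hinj : Function.Injective
          ((LinearMap.mulRight Kbar (algebraMap (AL N) (LN N) b)).comp (Psi N).toLinearMap) := by
        intro x y hxy
        simp only [LinearMap.coe_comp, Function.comp_apply, AlgHom.toLinearMap_apply,
          LinearMap.mulRight_apply] at hxy
        have hb1 : algebraMap (AL N) (LN N) b ≠ 0 := by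
          rw [Ne, map_eq_zero_iff _ algebraMap_AL_injective]
          exact hb0
        exact (Psi N).toRingHom.injective (mul_right_cancel₀ hb1 hxy)
      exact h1.map' _ (LinearMap.ker_eq_bot.mpr hinj)
    have h3 : LinearIndependent Kbar
        ((IsScalarTower.toAlgHom Kbar (AL N) (LN N)).toLinearMap ∘ a) := by
      have e : ((IsScalarTower.toAlgHom Kbar (AL N) (LN N)).toLinearMap ∘ a) =
          fun i => Psi N (B i : FN N) * algebraMap (AL N) (LN N) b := by
        funext i
        rw [ha i]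
        rfl
      rw [e]
      exact h2
    exact LinearIndependent.of_comp _ h3
  have hindC := linearIndependent_complex_of_AL a hindA
  -- the forms
  let G : Fin (finrank Kbar L) → S20.MF (CongruenceSubgroup.Gamma0 N) 12 := fun i =>
    ⟨fun τ => u i τ * ModularForm.discriminant τ,
      mul_discriminant_mem_MF _ (B i).2 (a i) b hb0 (ha i) (u i) (hu i) (hub i)⟩
  have hindG : LinearIndependent ℂ G := by
    rw [Fintype.linearIndependent_iff] at hindC ⊢
    intro c hc
    apply hindC c
    funext τ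
    have h1 := congrFun (congrArg Subtype.val hc) τ
    have h2 : ∑ i, c i * (u i τ * ModularForm.discriminant τ) = 0 := by
      simpa [G, Finset.sum_apply] using h1
    have h3 : (∑ i, c i * u i τ) * ModularForm.discriminant τ = 0 := by
      rw [Finset.sum_mul, ← h2]
      exact Finset.sum_congr rfl fun i _ => by ring
    have h4 : ∑ i, c i * u i τ = 0 :=
      (mul_eq_zero.mp h3).resolve_right (ModularForm.discriminant_ne_zero τ)
    have h5 : (∑ i, c i * u i τ) * (b : AL N).1 τ = 0 := by rw [h4, zero_mul]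
    rw [Finset.sum_mul] at h5
    simp only [Finset.sum_apply, Pi.smul_apply, smul_eq_mul, Pi.zero_apply]
    rw [← h5]
    exact Finset.sum_congr rfl fun i _ => by rw [← hub i τ]; ring
  have := hindG.fintype_card_le_finrank
  simpa using this

/-- **Genus bridge**: `dim S₂(Γ₀(N)) ≤ genusFF ℚ̄ (FN N)`. -/
theorem finrank_cuspForm_le_genusFF (N : ℕ) [NeZero N] :
    finrank ℂ (CuspForm (CongruenceSubgroup.Gamma0 N) 2) ≤ genusFF Kbar (FN N) := by
  have hF : ∃ x : FN N, Transcendental Kbar x := ⟨jF N, Formal.transcendental_jF N⟩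
  have h1 := riemann_inequality hF (poleDiv (K := Kbar) (jF N))
  rw [degree_poleDiv _ (Formal.transcendental_jF N), Export.finrank_eq_index] at h1
  have h2 := finrank_L_le (N := N)
  have h3 := (finrank_MF_twelve N).2
  omega

end Fermat.Agent.GAL.GenusBridge
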